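import Mathlib

/-!
# S29 (R3), block (B), generic algebra: reduction of eigen-characters

`Γ` a finitely generated group, `v : Additive Γ →+ C` a nonzero character with values in an
`R`-module `C` (in the application `R = integralClosure ℤ ℂ`, `C = ℂ`) satisfying a family of
"eigen-relations" which are linear in the *values* of `v`:

  `∑ i, v (x r i) = a r • v (y r)`   (`r : Rr`, `a r : R`).

(Transfer shape: `Rr = primes × Γ`, `x (ℓ, γ) i = γ_i'` with `δ_i γ = γ_i' δ_{π i}`, `y (ℓ, γ) = γ`,
`a (ℓ, γ) = a_ℓ`.)  If `𝔓` is a maximal ideal of `R` such that the elements outside `𝔓` act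
injectively on `C`, and `k0` is a field which is an `R`-algebra with kernel `𝔓`, then there is a
nonzero `k0`-valued character `c` with the reduced relations, killing everything `v` kills.

Proof: the universal module `Q` of such characters is finitely generated; a nonzero map `Q → C`
shows `𝔓 Q ≠ Q` (Nakayama), and a nonzero functional on the `R/𝔓`-vector space `Q/𝔓Q` gives `c`.

Also: decomposition of a `k0`-valued character of a f.g. group as `∑ λ_j c_j` with `λ_j`
linearly independent over `𝔽_p` and `c_j` `𝔽_p`-valued, and the tensor form.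
-/

set_option autoImplicit false

namespace Fermat.Agent.S29.Eigen.EigenReduce

open scoped BigOperators

noncomputable section

section Universal

variable {R : Type*} [CommRing R] {Γ : Type*} [Group Γ]
variable {Rr : Type*} (n : Rr → ℕ) (x : ∀ r, Fin (n r) → Γ) (y : Rr → Γ) (a : Rr → R)
variable (Z : Set Γ)

/-- generators of the relation module. -/
def relSet : Set (Γ →₀ R) :=
  {f | ∃ g h : Γ, f = Finsupp.single (g * h) 1 - Finsupp.single g 1 - Finsupp.single h 1} ∪
  {f | ∃ z ∈ Z, f = Finsupp.single z 1} ∪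
  {f | ∃ r : Rr, f = (∑ i, Finsupp.single (x r i) (1 : R)) - a r • Finsupp.single (y r) 1}

/-- the relation module. -/
def rel : Submodule R (Γ →₀ R) := Submodule.span R (relSet n x y a Z)

/-- the universal module of eigen-characters. -/
abbrev UQ : Type _ := (Γ →₀ R) ⧸ rel n x y a Z

/-- the class of a group element. -/
def cls (g : Γ) : UQ n x y a Z := Submodule.Quotient.mk (Finsupp.single g 1)

theorem cls_mul (g h : Γ) : cls n x y a Z (g * h) = cls n x y a Z g + cls n x y a Z h := by
  have hmem : (Finsupp.single (g * h) 1 - Finsupp.single g 1 - Finsupp.single h 1 : Γ →₀ R)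
      ∈ rel n x y a Z :=
    Submodule.subset_span (Or.inl (Or.inl ⟨g, h, rfl⟩))
  have := (Submodule.Quotient.mk_eq_zero (rel n x y a Z)).2 hmem
  rw [Submodule.Quotient.mk_sub, Submodule.Quotient.mk_sub, sub_sub, sub_eq_zero] at this
  exact this

theorem cls_one : cls n x y a Z 1 = 0 := by
  have h := cls_mul n x y a Z 1 1
  rw [mul_one] at h
  exact left_eq_add.mp h

theorem cls_inv (g : Γ) : cls n x y a Z g⁻¹ = - cls n x y a Z g := by
  have h := cls_mul n x y a Z g g⁻¹
  rw [mul_inv_cancel, cls_one] at h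
  exact (neg_eq_of_add_eq_zero_right h.symm).symm

theorem cls_of_mem {z : Γ} (hz : z ∈ Z) : cls n x y a Z z = 0 :=
  (Submodule.Quotient.mk_eq_zero (rel n x y a Z)).2
    (Submodule.subset_span (Or.inl (Or.inr ⟨z, hz, rfl⟩)))

theorem cls_rel (r : Rr) :
    ∑ i, cls n x y a Z (x r i) = a r • cls n x y a Z (y r) := by
  have hmem : ((∑ i, Finsupp.single (x r i) (1 : R)) - a r • Finsupp.single (y r) 1 : Γ →₀ R)
      ∈ rel n x y a Z :=
    Submodule.subset_span (Or.inr ⟨r, rfl⟩)
  have := (Submodule.Quotient.mk_eq_zero (rel n x y a Z)).2 hmem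
  rw [Submodule.Quotient.mk_sub, sub_eq_zero] at this
  have h2 : (Submodule.Quotient.mk (∑ i, Finsupp.single (x r i) (1 : R)) : UQ n x y a Z)
      = ∑ i, cls n x y a Z (x r i) := by
    rw [← Submodule.mkQ_apply, map_sum]
    rfl
  rw [← h2, this]
  rfl

/-- the classes span. -/
theorem span_range_cls : Submodule.span R (Set.range (cls n x y a Z)) = ⊤ := by
  rw [eq_top_iff]
  rintro q -
  obtain ⟨f, rfl⟩ := Submodule.Quotient.mk_surjective _ q
  induction f using Finsupp.induction_linear with
  | zero => exact Submodule.zero_mem _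
  | add f g hf hg =>
    rw [Submodule.Quotient.mk_add]
    exact Submodule.add_mem _ hf hg
  | single g c =>
    have : (Finsupp.single g c : Γ →₀ R) = c • Finsupp.single g 1 := by
      rw [Finsupp.smul_single, smul_eq_mul, mul_one]
    rw [this, Submodule.Quotient.mk_smul]
    exact Submodule.smul_mem _ _ (Submodule.subset_span ⟨g, rfl⟩)

/-- the classes of a generating set span. -/
theorem span_image_cls {S : Set Γ} (hS : Subgroup.closure S = ⊤) :
    Submodule.span R (cls n x y a Z '' S) = ⊤ := by
  rw [eq_top_iff, ← span_range_cls n x y a Z, Submodule.span_le]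
  rintro _ ⟨g, rfl⟩
  have hg : g ∈ Subgroup.closure S := by rw [hS]; trivial
  induction hg using Subgroup.closure_induction with
  | mem g hg => exact Submodule.subset_span ⟨g, hg, rfl⟩
  | one => rw [cls_one]; exact Submodule.zero_mem _
  | mul g h _ _ hg hh => rw [cls_mul]; exact Submodule.add_mem _ hg hh
  | inv g _ hg => rw [cls_inv]; exact Submodule.neg_mem _ hg

theorem fg_top [Group.FG Γ] : (⊤ : Submodule R (UQ n x y a Z)).FG := by
  obtain ⟨S, hS⟩ := Group.fg_def.1 (inferInstance : Group.FG Γ)
  rw [← span_image_cls n x y a Z hS]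
  exact Submodule.fg_span ((Finset.finite_toSet S).image _)

/-- the linear map out of the universal module induced by an eigen-character. -/
def lift {C : Type*} [AddCommGroup C] [Module R C] (u : Γ → C)
    (hmul : ∀ g h, u (g * h) = u g + u h) (hZ : ∀ z ∈ Z, u z = 0)
    (hrel : ∀ r, ∑ i, u (x r i) = a r • u (y r)) : UQ n x y a Z →ₗ[R] C :=
  Submodule.liftQ _ (Finsupp.linearCombination R u) (by
    rw [rel, Submodule.span_le]
    rintro f ((⟨g, h, rfl⟩ | ⟨z, hz, rfl⟩) | ⟨r, rfl⟩)
    · simp only [SetLike.mem_coe, LinearMap.mem_ker, map_sub, Finsupp.linearCombination_single,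
        one_smul, hmul]
      abel
    · simp only [SetLike.mem_coe, LinearMap.mem_ker, Finsupp.linearCombination_single, one_smul,
        hZ z hz]
    · simp only [SetLike.mem_coe, LinearMap.mem_ker, map_sub, map_sum, map_smul,
        Finsupp.linearCombination_single, one_smul, hrel, sub_self])

@[simp] theorem lift_cls {C : Type*} [AddCommGroup C] [Module R C] (u : Γ → C)
    (hmul : ∀ g h, u (g * h) = u g + u h) (hZ : ∀ z ∈ Z, u z = 0)
    (hrel : ∀ r, ∑ i, u (x r i) = a r • u (y r)) (g : Γ) :
    lift n x y a Z u hmul hZ hrel (cls n x y a Z g) = u g := by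
  simp [lift, cls]

end Universal

section Main

variable {R : Type*} [CommRing R] {Γ : Type*} [Group Γ] [Group.FG Γ]
variable {Rr : Type*} (n : Rr → ℕ) (x : ∀ r, Fin (n r) → Γ) (y : Rr → Γ) (a : Rr → R)

/-- **Generic reduction of eigen-characters.**  `v` a nonzero `C`-valued character of the f.g.
group `Γ` with eigen-relations `∑ i, v (x r i) = a r • v (y r)`; `𝔓` a maximal ideal of `R` whose
complement acts injectively on `C`; `k0` a field, `R`-algebra with kernel `𝔓`.  Then there is a
nonzero `k0`-valued character with the reduced relations killing everything `v` kills. -/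
theorem exists_eigen_reduction_generic
    {C : Type*} [AddCommGroup C] [Module R C] (v : Additive Γ →+ C) (hv : v ≠ 0)
    (hev : ∀ r, ∑ i, v (Additive.ofMul (x r i)) = a r • v (Additive.ofMul (y r)))
    (𝔓 : Ideal R) [h𝔓 : 𝔓.IsMaximal] (hC : ∀ s : R, s ∉ 𝔓 → ∀ c : C, s • c = 0 → c = 0)
    {k0 : Type*} [Field k0] [Algebra R k0] (hk : RingHom.ker (algebraMap R k0) = 𝔓) :
    ∃ c : Additive Γ →+ k0, c ≠ 0 ∧
      (∀ g : Γ, v (Additive.ofMul g) = 0 → c (Additive.ofMul g) = 0) ∧
      ∀ r, ∑ i, c (Additive.ofMul (x r i)) = algebraMap R k0 (a r) * c (Additive.ofMul (y r)) := by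
  classical
  set Z : Set Γ := {g | v (Additive.ofMul g) = 0} with hZdef
  -- the universal module and the map induced by `v`
  let Q := UQ n x y a Z
  let vt : Q →ₗ[R] C := lift n x y a Z (fun g => v (Additive.ofMul g))
    (fun g h => by simp only [ofMul_mul, map_add]) (fun z hz => hz) hev
  have hvt : ∀ g, vt (cls n x y a Z g) = v (Additive.ofMul g) := fun g => lift_cls ..
  -- Nakayama: `𝔓 Q ≠ Q`
  have hne : (𝔓 • (⊤ : Submodule R Q)) ≠ ⊤ := by
    intro htop
    obtain ⟨s, hs1, hs⟩ := Submodule.exists_sub_one_mem_and_smul_eq_zero_of_fg_of_le_smul 𝔓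
      (⊤ : Submodule R Q) (fg_top n x y a Z) (by rw [htop])
    have hs𝔓 : s ∉ 𝔓 := by
      intro hmem
      apply h𝔓.ne_top
      rw [Ideal.eq_top_iff_one]
      have : (1 : R) = s - (s - 1) := by ring
      rw [this]
      exact 𝔓.sub_mem hmem hs1
    apply hv
    refine AddMonoidHom.ext fun g' => ?_
    obtain ⟨g, rfl⟩ := Additive.ofMul.surjective g'
    have h0 : s • vt (cls n x y a Z g) = 0 := by
      rw [← map_smul, hs _ Submodule.mem_top, map_zero]
    have := hC s hs𝔓 _ h0
    rw [hvt] at this
    rw [this]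
    rfl
  -- the quotient `Q / 𝔓 Q`, a nonzero vector space over `κ = R / 𝔓`
  let _ : Field (R ⧸ 𝔓) := Ideal.Quotient.field 𝔓
  let Qb := Q ⧸ (𝔓 • (⊤ : Submodule R Q))
  have hQb : ∃ w : Qb, w ≠ 0 := by
    by_contra hall
    push Not at hall
    apply hne
    rw [eq_top_iff]
    rintro q -
    exact (Submodule.Quotient.mk_eq_zero _).1 (hall (Submodule.Quotient.mk q))
  obtain ⟨w, hw⟩ := hQb
  obtain ⟨f, hf⟩ := Module.Projective.exists_dual_ne_zero (R ⧸ 𝔓) hw
  -- the ring hom `κ → k0`
  let ι : R ⧸ 𝔓 →+* k0 := Ideal.Quotient.lift 𝔓 (algebraMap R k0) (fun r hr => by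
    rw [← hk] at hr; exact hr)
  have hι : ∀ r : R, ι (Ideal.Quotient.mk 𝔓 r) = algebraMap R k0 r := fun r =>
    Ideal.Quotient.lift_mk 𝔓 (algebraMap R k0) _
  -- the classes in `Qb`
  let clb : Γ → Qb := fun g => Submodule.Quotient.mk (cls n x y a Z g)
  have hclb_mul : ∀ g h, clb (g * h) = clb g + clb h := fun g h => by
    simp only [clb, cls_mul, Submodule.Quotient.mk_add]
  -- the character
  let c : Additive Γ →+ k0 :=
    { toFun := fun g => ι (f (clb (Additive.toMul g)))
      map_zero' := by
        have : clb 1 = 0 := by simp only [clb, cls_one, Submodule.Quotient.mk_zero]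
        simp only [toMul_zero, this, map_zero]
      map_add' := fun g h => by
        simp only [toMul_add, hclb_mul, map_add] }
  have hc_apply : ∀ g : Γ, c (Additive.ofMul g) = ι (f (clb g)) := fun g => rfl
  refine ⟨c, ?_, ?_, ?_⟩
  · -- nonzero: the classes span `Qb`
    intro hc0
    apply hf
    have hspan : Submodule.span (R ⧸ 𝔓) (Set.range clb) = ⊤ := by
      rw [eq_top_iff]
      rintro q -
      obtain ⟨q, rfl⟩ := Submodule.Quotient.mk_surjective _ q
      have hq : q ∈ Submodule.span R (Set.range (cls n x y a Z)) := by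
        rw [span_range_cls]; trivial
      induction hq using Submodule.span_induction with
      | mem q hq =>
        obtain ⟨g, rfl⟩ := hq
        exact Submodule.subset_span ⟨g, rfl⟩
      | zero => rw [Submodule.Quotient.mk_zero]; exact Submodule.zero_mem _
      | add q q' _ _ hq hq' =>
        rw [Submodule.Quotient.mk_add]; exact Submodule.add_mem _ hq hq'
      | smul r q _ hq =>
        rw [← Module.Quotient.mk_smul_mk]
        exact Submodule.smul_mem _ _ hq
    have hfz : ∀ q ∈ Submodule.span (R ⧸ 𝔓) (Set.range clb), f q = 0 := by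
      intro q hq
      induction hq using Submodule.span_induction with
      | mem q hq =>
        obtain ⟨g, rfl⟩ := hq
        have h1 : c (Additive.ofMul g) = 0 := by rw [hc0]; rfl
        rw [hc_apply] at h1
        exact (map_eq_zero_iff ι ι.injective).1 h1
      | zero => exact map_zero f
      | add q q' _ _ hq hq' => rw [map_add, hq, hq', add_zero]
      | smul r q _ hq => rw [map_smul, hq, smul_zero]
    exact hfz w (by rw [hspan]; trivial)
  · intro g hg
    have : cls n x y a Z g = 0 := cls_of_mem n x y a Z hg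
    rw [hc_apply]
    simp only [clb, this, Submodule.Quotient.mk_zero, map_zero]
  · intro r
    have h1 : ∑ i, clb (x r i) = Ideal.Quotient.mk 𝔓 (a r) • clb (y r) := by
      simp only [clb]
      rw [Module.Quotient.mk_smul_mk, ← cls_rel n x y a Z r]
      rw [← Submodule.mkQ_apply, map_sum]
      rfl
    simp only [hc_apply]
    rw [← map_sum, ← map_sum, h1, map_smul, smul_eq_mul, map_mul, hι]

end Main

section Concrete

/-- the kernel of a ring hom from `ℤ̄` to a field of characteristic `p` is a maximal ideal. -/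
theorem ker_isMaximal_of_charP {k0 : Type*} [Field k0] (p : ℕ) [hp : Fact p.Prime] [CharP k0 p]
    (φ : integralClosure ℤ ℂ →+* k0) : (RingHom.ker φ).IsMaximal := by
  have : (RingHom.ker φ).IsPrime := RingHom.ker_isPrime φ
  apply Ideal.isMaximal_of_isIntegral_of_isMaximal_comap (R := ℤ) (RingHom.ker φ)
  have hprime : ((RingHom.ker φ).comap (algebraMap ℤ (integralClosure ℤ ℂ))).IsPrime :=
    Ideal.comap_isPrime _ _
  refine hprime.isMaximal ?_
  intro hbot
  have hmem : (p : ℤ) ∈ (RingHom.ker φ).comap (algebraMap ℤ (integralClosure ℤ ℂ)) := by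
    rw [Ideal.mem_comap, RingHom.mem_ker, map_natCast, map_natCast]
    exact CharP.cast_eq_zero k0 p
  rw [hbot, Ideal.mem_bot] at hmem
  exact hp.out.ne_zero (by exact_mod_cast hmem)

variable {Γ : Type*} [Group Γ] [Group.FG Γ]
variable {Rr : Type*} (n : Rr → ℕ) (x : ∀ r, Fin (n r) → Γ) (y : Rr → Γ)
  (a : Rr → integralClosure ℤ ℂ)

/-- **Reduction of complex eigen-characters** (block (B) of (R3)).  A nonzero `ℂ`-valued character
`v` of a f.g. group with eigen-relations `∑ i, v (x r i) = a r * v (y r)`, `a r ∈ ℤ̄`, and a ring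
hom `φ : ℤ̄ → k0` with maximal kernel: there is a nonzero `k0`-valued character `c` with
`∑ i, c (x r i) = φ (a r) * c (y r)` killing every group element killed by `v`. -/
theorem exists_eigen_reduction (v : Additive Γ →+ ℂ) (hv : v ≠ 0)
    (hev : ∀ r, ∑ i, v (Additive.ofMul (x r i)) = (a r : ℂ) * v (Additive.ofMul (y r)))
    {k0 : Type*} [Field k0] (φ : integralClosure ℤ ℂ →+* k0) (hφ : (RingHom.ker φ).IsMaximal) :
    ∃ c : Additive Γ →+ k0, c ≠ 0 ∧
      (∀ g : Γ, v (Additive.ofMul g) = 0 → c (Additive.ofMul g) = 0) ∧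
      ∀ r, ∑ i, c (Additive.ofMul (x r i)) = φ (a r) * c (Additive.ofMul (y r)) := by
  let _ : Algebra (integralClosure ℤ ℂ) k0 := φ.toAlgebra
  have := hφ
  have hC : ∀ s : integralClosure ℤ ℂ, s ∉ RingHom.ker φ → ∀ c : ℂ, s • c = 0 → c = 0 := by
    intro s hs c hsc
    have hs0 : s ≠ 0 := by
      rintro rfl
      exact hs (RingHom.ker φ).zero_mem
    have hs0' : (s : ℂ) ≠ 0 := fun h => hs0 (Subtype.ext h)
    rw [Subalgebra.smul_def, smul_eq_mul] at hsc
    exact (mul_eq_zero.1 hsc).resolve_left hs0'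
  have hev' : ∀ r, ∑ i, v (Additive.ofMul (x r i)) = a r • v (Additive.ofMul (y r)) := by
    intro r
    rw [hev r, Subalgebra.smul_def, smul_eq_mul]
  exact exists_eigen_reduction_generic n x y a v hv hev' (RingHom.ker φ) hC rfl

/-- the same with `CharP k0 p`. -/
theorem exists_eigen_reduction_charP (v : Additive Γ →+ ℂ) (hv : v ≠ 0)
    (hev : ∀ r, ∑ i, v (Additive.ofMul (x r i)) = (a r : ℂ) * v (Additive.ofMul (y r)))
    {k0 : Type*} [Field k0] (p : ℕ) [Fact p.Prime] [CharP k0 p]
    (φ : integralClosure ℤ ℂ →+* k0) :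
    ∃ c : Additive Γ →+ k0, c ≠ 0 ∧
      (∀ g : Γ, v (Additive.ofMul g) = 0 → c (Additive.ofMul g) = 0) ∧
      ∀ r, ∑ i, c (Additive.ofMul (x r i)) = φ (a r) * c (Additive.ofMul (y r)) :=
  exists_eigen_reduction n x y a v hv hev φ (ker_isMaximal_of_charP p φ)

end Concrete

section Decomp

open TensorProduct

variable {Γ : Type*} [Group Γ] [Group.FG Γ]
variable {k0 : Type*} [Field k0] (p : ℕ) [Fact p.Prime] [Algebra (ZMod p) k0]

/-- **Decomposition.**  A `k0`-valued character of a f.g. group is `∑ j, c_j • λ_j` with `λ_j ∈ k0`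
linearly independent over `𝔽_p` and `𝔽_p`-valued characters `c_j`, each killing what `c` kills. -/
theorem exists_decomp (c : Additive Γ →+ k0) :
    ∃ (m : ℕ) (lam : Fin m → k0) (cj : Fin m → (Additive Γ →+ ZMod p)),
      LinearIndependent (ZMod p) lam ∧
      (∀ g : Additive Γ, c g = ∑ j, (cj j g) • lam j) ∧
      ∀ g : Additive Γ, c g = 0 → ∀ j, cj j g = 0 := by
  classical
  obtain ⟨S, hS⟩ := Group.fg_def.1 (inferInstance : Group.FG Γ)
  let U : Submodule (ZMod p) k0 :=
    Submodule.span (ZMod p) ((fun g : Γ => c (Additive.ofMul g)) '' (S : Set Γ))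
  have hUfin : FiniteDimensional (ZMod p) U :=
    FiniteDimensional.span_of_finite _ ((Finset.finite_toSet S).image _)
  have hU : ∀ g : Γ, c (Additive.ofMul g) ∈ U := by
    intro g
    have hg : g ∈ Subgroup.closure (S : Set Γ) := by rw [hS]; trivial
    induction hg using Subgroup.closure_induction with
    | mem g hg => exact Submodule.subset_span ⟨g, hg, rfl⟩
    | one => rw [ofMul_one, map_zero]; exact Submodule.zero_mem _
    | mul g h _ _ hg hh => rw [ofMul_mul, map_add]; exact Submodule.add_mem _ hg hh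
    | inv g _ hg => rw [ofMul_inv, map_neg]; exact Submodule.neg_mem _ hg
  let c' : Additive Γ →+ U :=
    { toFun := fun g => ⟨c g, hU (Additive.toMul g)⟩
      map_zero' := Subtype.ext (map_zero c)
      map_add' := fun g h => Subtype.ext (map_add c g h) }
  let b := Module.finBasis (ZMod p) U
  refine ⟨Module.finrank (ZMod p) U, fun j => (b j : k0),
    fun j => (b.coord j).toAddMonoidHom.comp c', ?_, ?_, ?_⟩
  · exact b.linearIndependent.map' U.subtype (Submodule.ker_subtype U)
  · intro g
    have h1 := b.sum_repr (c' g)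
    have h2 : ((∑ j, b.repr (c' g) j • b j : U) : k0) = c g := by rw [h1]; rfl
    rw [← h2, Submodule.coe_sum]
    rfl
  · intro g hg j
    have : c' g = 0 := Subtype.ext hg
    show b.coord j (c' g) = 0
    rw [this, map_zero]

variable (P : Submodule (ZMod p) (Additive Γ →+ ZMod p))

/-- evaluation at a group element on a submodule of `𝔽_p`-valued characters. -/
def evP (γ : Γ) : P →ₗ[ZMod p] ZMod p where
  toFun u := (u : Additive Γ →+ ZMod p) (Additive.ofMul γ)
  map_add' _ _ := rfl
  map_smul' _ _ := rfl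

/-- evaluation on `k0 ⊗ P`: `λ ⊗ u ↦ u γ • λ`. -/
def evT (γ : Γ) : k0 ⊗[ZMod p] P →ₗ[ZMod p] k0 :=
  TensorProduct.lift (((LinearMap.lsmul (ZMod p) k0).comp (evP p P γ)).flip)

omit [Group.FG Γ] in
@[simp] theorem evT_tmul (γ : Γ) (l : k0) (u : P) :
    evT p P γ (l ⊗ₜ u) = ((u : Additive Γ →+ ZMod p) (Additive.ofMul γ)) • l := by
  simp [evT, evP]

omit [Group.FG Γ] in
/-- the evaluations are jointly injective on `k0 ⊗ P`. -/
theorem eq_zero_of_evT_eq_zero (z : k0 ⊗[ZMod p] P) (hz : ∀ γ : Γ, evT p P γ z = 0) : z = 0 := by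
  classical
  let ℬ := Module.Free.chooseBasis (ZMod p) k0
  obtain ⟨d, rfl⟩ := TensorProduct.eq_repr_basis_left ℬ z
  have hd : ∀ i, d i = 0 := by
    intro i
    by_contra hi
    apply hi
    apply Subtype.ext
    refine AddMonoidHom.ext fun g' => ?_
    obtain ⟨γ, rfl⟩ := Additive.ofMul.surjective g'
    have h0 := hz γ
    rw [Finsupp.sum, map_sum] at h0
    simp only [evT_tmul] at h0
    have hli := ℬ.linearIndependent
    rw [linearIndependent_iff'] at hli
    have := hli d.support (fun i => ((d i : P) : Additive Γ →+ ZMod p) (Additive.ofMul γ)) h0 i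
      (Finsupp.mem_support_iff.2 hi)
    simpa using this
  have : d = 0 := Finsupp.ext hd
  rw [this, Finsupp.sum_zero_index]

variable {ι : Type*} (T : ι → P →ₗ[ZMod p] P) (m : ι → ℕ) (t : ∀ l, Fin (m l) → Γ → Γ)

/-- **Tensor form.**  `P` a submodule of `𝔽_p`-valued characters of `Γ` containing every character
that kills the kernel of `c`; `T l` endomorphisms of `P` given by a transfer formula
`(T l u) γ = ∑ i, u (t l i γ)`; `c` a nonzero `k0`-valued character with
`∑ i, c (t l i γ) = b l * c γ`.  Then `k0 ⊗ P` contains a nonzero common eigenvector of the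
`T l ⊗ 1` with eigenvalues `b l`. -/
theorem exists_tensor_eigen
    (hT : ∀ (l : ι) (u : P) (γ : Γ), ((T l u : P) : Additive Γ →+ ZMod p) (Additive.ofMul γ) =
      ∑ i, (u : Additive Γ →+ ZMod p) (Additive.ofMul (t l i γ)))
    (c : Additive Γ →+ k0) (hc : c ≠ 0) (b : ι → k0)
    (hcb : ∀ (l : ι) (γ : Γ), ∑ i, c (Additive.ofMul (t l i γ)) = b l * c (Additive.ofMul γ))
    (hP : ∀ u : Additive Γ →+ ZMod p, (∀ g, c g = 0 → u g = 0) → u ∈ P) :
    ∃ w : k0 ⊗[ZMod p] P, w ≠ 0 ∧ ∀ l, (T l).baseChange k0 w = b l • w := by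
  classical
  obtain ⟨m', lam, cj, -, hsum, hkill⟩ := exists_decomp p c
  have hcjP : ∀ j, cj j ∈ P := fun j => hP _ (fun g hg => hkill g hg j)
  let w : k0 ⊗[ZMod p] P := ∑ j, lam j ⊗ₜ (⟨cj j, hcjP j⟩ : P)
  have hev : ∀ γ : Γ, evT p P γ w = c (Additive.ofMul γ) := by
    intro γ
    simp only [w, map_sum, evT_tmul]
    exact (hsum _).symm
  refine ⟨w, ?_, ?_⟩
  · intro hw
    apply hc
    refine AddMonoidHom.ext fun g' => ?_
    obtain ⟨γ, rfl⟩ := Additive.ofMul.surjective g'
    rw [← hev γ, hw, map_zero]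
    rfl
  · intro l
    rw [← sub_eq_zero]
    apply eq_zero_of_evT_eq_zero p P
    intro γ
    have h1 : evT p P γ ((T l).baseChange k0 w) = ∑ i, c (Additive.ofMul (t l i γ)) := by
      simp only [w, map_sum, LinearMap.baseChange_tmul, evT_tmul, hT]
      simp_rw [Finset.sum_smul]
      rw [Finset.sum_comm]
      refine Finset.sum_congr rfl fun i _ => ?_
      exact (hsum _).symm
    have h2 : evT p P γ (b l • w) = b l * c (Additive.ofMul γ) := by
      simp only [w, Finset.smul_sum, TensorProduct.smul_tmul', map_sum, evT_tmul, smul_eq_mul]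
      rw [hsum, Finset.mul_sum]
      refine Finset.sum_congr rfl fun j _ => ?_
      rw [mul_smul_comm]
    rw [map_sub, h1, h2, hcb, sub_self]

omit [Group.FG Γ] in
/-- **Transport along an equivariant embedding** (the shape of `NonVanish`). -/
theorem exists_eigen_of_embedding {Jp : Type*} [AddCommGroup Jp] [Module (ZMod p) Jp]
    (e : P →ₗ[ZMod p] Jp) (he : Function.Injective e) (TJ : ι → Jp →ₗ[ZMod p] Jp)
    (hcomm : ∀ l u, e (T l u) = TJ l (e u)) (b : ι → k0)
    (w : k0 ⊗[ZMod p] P) (hw : w ≠ 0) (hwe : ∀ l, (T l).baseChange k0 w = b l • w) :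
    ∃ v : k0 ⊗[ZMod p] Jp, v ≠ 0 ∧ ∀ l, (TJ l).baseChange k0 v = b l • v := by
  refine ⟨e.baseChange k0 w, ?_, ?_⟩
  · intro h0
    apply hw
    have hinj : Function.Injective (e.baseChange k0) := by
      have := Module.Flat.lTensor_preserves_injective_linearMap (M := k0) e he
      intro z z' hzz'
      apply this
      simpa [LinearMap.baseChange_eq_ltensor] using hzz'
    exact hinj (by rw [h0, map_zero])
  · intro l
    have h1 : (TJ l).baseChange k0 ∘ₗ e.baseChange k0 = e.baseChange k0 ∘ₗ (T l).baseChange k0 := by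
      rw [← LinearMap.baseChange_comp, ← LinearMap.baseChange_comp]
      congr 1
      ext u
      exact (hcomm l u).symm
    have h2 := congrArg (fun f => f w) h1
    simp only [LinearMap.comp_apply] at h2
    rw [h2, hwe, map_smul]

end Decomp

end

end Fermat.Agent.S29.Eigen.EigenReduce
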